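/-
S12 ⇐ S15, block END: the final inequality.  `16^(p-1) A^p + B^p = 16^(p-1) (A+B)^p` has no solution
in integers with `B ≠ 0` (`p` odd, `p ≥ 3`).  Mathlib only.
-/
import Mathlib

set_option autoImplicit false
set_option linter.unusedVariables false

namespace Fermat.Agent.S12

/-- `(x - y)^p ≤ 2^(p-1) (x^p - y^p)` for integers `y ≤ x` and odd `p`. -/
theorem ineq_sub_pow_le {p : ℕ} (hp : Odd p) {x y : ℤ} (h : y ≤ x) :
    (x - y) ^ p ≤ 2 ^ (p - 1) * (x ^ p - y ^ p) := by
  have hp0 : p ≠ 0 := by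
    rintro rfl
    simp at hp
  have h2 : (1 : ℤ) ≤ 2 ^ (p - 1) := one_le_pow₀ (by norm_num)
  -- the case `0 ≤ y ≤ x`
  have key : ∀ {x y : ℤ}, 0 ≤ y → y ≤ x → (x - y) ^ p ≤ 2 ^ (p - 1) * (x ^ p - y ^ p) := by
    intro x y hy hyx
    have h1 := pow_add_pow_le hy (sub_nonneg.2 hyx) hp0
    rw [add_sub_cancel] at h1
    have h3 : 0 ≤ (x - y) ^ p := pow_nonneg (sub_nonneg.2 hyx) p
    nlinarith
  rcases le_or_gt 0 y with hy | hy
  · exact key hy h
  · rcases le_or_gt 0 x with hx | hx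
    · have h1 := add_pow_le hx (neg_nonneg.2 hy.le) p
      rw [hp.neg_pow] at h1
      have e1 : x + -y = x - y := by ring
      have e2 : x ^ p + -y ^ p = x ^ p - y ^ p := by ring
      rwa [e1, e2] at h1
    · have h1 := key (x := -y) (y := -x) (neg_nonneg.2 hx.le) (neg_le_neg h)
      rw [hp.neg_pow, hp.neg_pow] at h1
      have e1 : -y - -x = x - y := by ring
      have e2 : -y ^ p - -x ^ p = x ^ p - y ^ p := by ring
      rwa [e1, e2] at h1

theorem no_sol {p : ℕ} (hp : Odd p) (hp3 : 3 ≤ p) {A B : ℤ} (hA : A ≠ 0) (hB : B ≠ 0)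
    (hAB : A + B ≠ 0) : 16 ^ (p - 1) * A ^ p + B ^ p ≠ 16 ^ (p - 1) * (A + B) ^ p := by
  intro h
  have hlt : (2 : ℤ) ^ (p - 1) < 16 ^ (p - 1) :=
    pow_lt_pow_left₀ (by norm_num) (by norm_num) (by omega)
  have h2pos : (0 : ℤ) < 2 ^ (p - 1) := by positivity
  rcases lt_or_gt_of_ne hB with hneg | hpos
  · -- `B < 0`
    have h1 := ineq_sub_pow_le hp (x := A) (y := A + B) (by linarith)
    have e1 : A - (A + B) = -B := by ring
    rw [e1, hp.neg_pow] at h1
    have h3 : 0 < -B ^ p := by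
      rw [← hp.neg_pow]
      exact pow_pos (by linarith) p
    -- `-B^p = 16^(p-1) D`, `D = A^p - (A+B)^p`
    set D : ℤ := A ^ p - (A + B) ^ p with hD
    have h4 : -B ^ p = 16 ^ (p - 1) * D := by rw [hD]; linear_combination -h
    have hDpos : 0 < D := by
      by_contra hcon
      have : 16 ^ (p - 1) * D ≤ 0 :=
        mul_nonpos_of_nonneg_of_nonpos (by positivity) (not_lt.1 hcon)
      linarith
    rw [h4] at h1
    have := lt_of_mul_lt_mul_right (lt_of_le_of_lt h1 (mul_lt_mul_of_pos_right hlt hDpos)) hDpos.le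
    exact lt_irrefl _ this
  · -- `0 < B`
    have h1 := ineq_sub_pow_le hp (x := A + B) (y := A) (by linarith)
    have e1 : A + B - A = B := by ring
    rw [e1] at h1
    have h3 : 0 < B ^ p := pow_pos hpos p
    set D : ℤ := (A + B) ^ p - A ^ p with hD
    have h4 : B ^ p = 16 ^ (p - 1) * D := by rw [hD]; linear_combination h
    have hDpos : 0 < D := by
      by_contra hcon
      have : 16 ^ (p - 1) * D ≤ 0 :=
        mul_nonpos_of_nonneg_of_nonpos (by positivity) (not_lt.1 hcon)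
      linarith
    rw [h4] at h1
    have := lt_of_mul_lt_mul_right (lt_of_le_of_lt h1 (mul_lt_mul_of_pos_right hlt hDpos)) hDpos.le
    exact lt_irrefl _ this

end Fermat.Agent.S12
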