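/-
S12 <= S15, block END (helper9).  File `Relation`: the key relation
`a^(p²) g₃² + b^(p²) g₂² = c^(p²) g₁²`, `g_i = ∏_{K ∈ C ∖ 0} (x(K) - x(T_i))`,
for every subgroup `C` of order `p` of the Frey curve (algebraic: `PF.f1`).
-/
import Fermat.Agent.S12.Quot.Bridge
import Fermat.Agent.S12.PF.Main

set_option autoImplicit false

namespace Fermat.Agent.S12

open WeierstrassCurve Fermat.Agent.S05.XOnly Fermat.Agent.Lib.Unif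
open Fermat.Agent.S13 (EPt GQ)

local notation "Qbar" => AlgebraicClosure ℚ

variable {P : FreyPackage} {C : AddSubgroup (EPt P)}

/-- `g(T) = ∏_{K ∈ C ∖ 0} (x(K) - x(T))`. -/
noncomputable def gg (C : AddSubgroup (EPt P)) (T : EPt P) : Qbar := ∏ K ∈ nz C, (xc K - xc T)

/-- `PF.f1` for the Frey curve, over `nz C`. -/
theorem f1_frey (hC : IsLine P C) {K₀ : EPt P} (hK₀ : K₀ ∈ nz C) {T₁ T₂ T₃ : EPt P}
    (h₁ : T₁ ≠ 0) (h₂ : T₂ ≠ 0) (h₃ : T₃ ≠ 0)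
    (h₁' : 2 • T₁ = 0) (h₂' : 2 • T₂ = 0) (h₃' : 2 • T₃ = 0)
    (h₁₂ : xc T₁ ≠ xc T₂) (h₁₃ : xc T₁ ≠ xc T₃) (h₂₃ : xc T₂ ≠ xc T₃) :
    (Quot.vX P K₀ T₂ - Quot.vX P K₀ T₁) * (gg C T₁ * gg C T₂) =
      (xc T₂ - xc T₁) ^ P.p * gg C T₃ := by
  have hpK : P.p • K₀ = 0 := hC.tors _ (hC.mem_of_mem_nz hK₀)
  have hne := Quot.nsmul_ne_zero hC hK₀
  unfold gg
  rw [← Quot.prod_Ico_eq_prod_nz hC hK₀ (fun K => xc K - xc T₁),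
    ← Quot.prod_Ico_eq_prod_nz hC hK₀ (fun K => xc K - xc T₂),
    ← Quot.prod_Ico_eq_prod_nz hC hK₀ (fun K => xc K - xc T₃)]
  unfold Quot.vX
  obtain ⟨m, hm⟩ := P.hp_odd
  rw [hm] at hpK hne ⊢
  exact PF.f1 (by norm_num) (S13.frey_Δ_ne_zero P) hpK hne h₁ h₂ h₃ h₁' h₂' h₃' h₁₂ h₁₃ h₂₃

theorem gg_ne_zero (hC : IsLine P C) {T : EPt P} (hT : T ≠ 0) (hT2 : 2 • T = 0) :
    gg C T ≠ 0 :=
  Finset.prod_ne_zero_iff.2 fun _ hK => sub_ne_zero.2 (hC.xc_ne_of_two hT hT2 hK)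

/-- **the key relation.** -/
theorem key_relation (hC : IsLine P C) :
    cA P ^ P.p * gg C (T3 P) ^ 2 + cB P ^ P.p * gg C (T2 P) ^ 2 =
      cC P ^ P.p * gg C (T1 P) ^ 2 := by
  obtain ⟨K₀, hK₀⟩ := hC.exists_mem_nz
  have e12 := f1_frey hC hK₀ (T1_ne_zero P) (T2_ne_zero P) (T3_ne_zero P) (two_nsmul_T1 P)
    (two_nsmul_T2 P) (two_nsmul_T3 P) (xc_T1_ne_xc_T2 P) (xc_T1_ne_xc_T3 P) (xc_T2_ne_xc_T3 P)
  have e31 := f1_frey hC hK₀ (T3_ne_zero P) (T1_ne_zero P) (T2_ne_zero P) (two_nsmul_T3 P)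
    (two_nsmul_T1 P) (two_nsmul_T2 P) (xc_T1_ne_xc_T3 P).symm (xc_T2_ne_xc_T3 P).symm
    (xc_T1_ne_xc_T2 P)
  have e32 := f1_frey hC hK₀ (T3_ne_zero P) (T2_ne_zero P) (T1_ne_zero P) (two_nsmul_T3 P)
    (two_nsmul_T2 P) (two_nsmul_T1 P) (xc_T2_ne_xc_T3 P).symm (xc_T1_ne_xc_T3 P).symm
    (xc_T1_ne_xc_T2 P).symm
  rw [xc_T1, xc_T2, sub_zero] at e12
  rw [xc_T1, xc_T3] at e31
  rw [xc_T2, xc_T3] at e32
  have hA : (cA P / 4) ^ P.p = cA P ^ P.p / 4 ^ P.p := div_pow _ _ _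
  have hB : (0 - -cB P / 4) ^ P.p = cB P ^ P.p / 4 ^ P.p := by
    rw [← div_pow]; congr 1; ring
  have hCC : (cA P / 4 - -cB P / 4) ^ P.p = cC P ^ P.p / 4 ^ P.p := by
    rw [← div_pow, ← cA_add_cB]; congr 1; ring
  rw [hA] at e12
  rw [hB] at e31
  rw [hCC] at e32
  have h4 : (4 : Qbar) ^ P.p ≠ 0 := pow_ne_zero _ (by norm_num)
  have e12' : cA P ^ P.p * gg C (T3 P) =
      4 ^ P.p * ((Quot.vX P K₀ (T2 P) - Quot.vX P K₀ (T1 P)) * (gg C (T1 P) * gg C (T2 P))) := by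
    rw [e12]; field_simp
  have e31' : cB P ^ P.p * gg C (T2 P) =
      4 ^ P.p * ((Quot.vX P K₀ (T1 P) - Quot.vX P K₀ (T3 P)) * (gg C (T3 P) * gg C (T1 P))) := by
    rw [e31]; field_simp
  have e32' : cC P ^ P.p * gg C (T1 P) =
      4 ^ P.p * ((Quot.vX P K₀ (T2 P) - Quot.vX P K₀ (T3 P)) * (gg C (T3 P) * gg C (T2 P))) := by
    rw [e32]; field_simp
  linear_combination gg C (T3 P) * e12' + gg C (T2 P) * e31' - gg C (T1 P) * e32'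

end Fermat.Agent.S12
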